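import Mathlib
import Fermat.Prelude.Def_AlgebraicCurve_DivisorClassGroup
import Fermat.Agent.Lib.RR.Ord

/-!
# S17 / H / CHOW (helper890): values of functions at places

`IsVal v f b` : the function `f` is regular at the place `v` with value `b ∈ K`
(`f - b = 0` or `ord_v (f - b) > 0`; this is the shape used by `S37.H100.fibre_charpoly`).
`pval v f` : the value (junk value `0` if `f` has no value at `v`).
-/

set_option autoImplicit false

noncomputable section

namespace Fermat.Agent.S17.H890

open AlgebraicCurve Fermat.Agent.Lib.RR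

variable {K F : Type*} [Field K] [Field F] [Algebra K F]

/-- `f` is regular at `v` with value `b`. -/
def IsVal (v : Place K F) (f : F) (b : K) : Prop :=
  f - algebraMap K F b = 0 ∨ 0 < v.ord (f - algebraMap K F b)

theorem isVal_const (v : Place K F) (b : K) : IsVal v (algebraMap K F b) b :=
  Or.inl (sub_self _)

theorem isVal_zero (v : Place K F) : IsVal v (0 : F) 0 := by
  simpa using isVal_const v (0 : K)

theorem isVal_one (v : Place K F) : IsVal v (1 : F) 1 := by
  simpa using isVal_const v (1 : K)

theorem isVal_zero_iff (v : Place K F) (f : F) : IsVal v f 0 ↔ f = 0 ∨ 0 < v.ord f := by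
  unfold IsVal
  rw [map_zero, sub_zero]

theorem isVal_of_ord_pos (v : Place K F) {f : F} (h : 0 < v.ord f) : IsVal v f 0 :=
  (isVal_zero_iff v f).mpr (Or.inr h)

/-- a function with a value is regular -/
theorem IsVal.ord_nonneg {v : Place K F} {f : F} {b : K} (h : IsVal v f b) :
    f = 0 ∨ 0 ≤ v.ord f := by
  have h1 : f - algebraMap K F b = 0 ∨ (0 : ℤ) ≤ v.ord (f - algebraMap K F b) := by
    rcases h with h | h
    · exact Or.inl h
    · exact Or.inr h.le
  have h2 : algebraMap K F b = 0 ∨ (0 : ℤ) ≤ v.ord (algebraMap K F b) :=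
    Or.inr (ord_algebraMap v b).ge
  have h3 := ord_add_of_le v h1 h2
  rwa [sub_add_cancel] at h3

theorem IsVal.mem {v : Place K F} {f : F} {b : K} (h : IsVal v f b) :
    f ∈ v.toValuationSubring := by
  rcases h.ord_nonneg with h0 | h0
  · rw [h0]; exact zero_mem _
  · exact mem_of_ord_nonneg v h0

theorem IsVal.add {v : Place K F} {f g : F} {b c : K} (hf : IsVal v f b) (hg : IsVal v g c) :
    IsVal v (f + g) (b + c) := by
  unfold IsVal at *
  have h1 : f - algebraMap K F b = 0 ∨ (1 : ℤ) ≤ v.ord (f - algebraMap K F b) := by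
    rcases hf with h | h
    · exact Or.inl h
    · exact Or.inr h
  have h2 : g - algebraMap K F c = 0 ∨ (1 : ℤ) ≤ v.ord (g - algebraMap K F c) := by
    rcases hg with h | h
    · exact Or.inl h
    · exact Or.inr h
  have h3 := ord_add_of_le v h1 h2
  have e : f + g - algebraMap K F (b + c) = (f - algebraMap K F b) + (g - algebraMap K F c) := by
    rw [map_add]; ring
  rw [e]
  rcases h3 with h | h
  · exact Or.inl h
  · exact Or.inr h

theorem IsVal.neg {v : Place K F} {f : F} {b : K} (hf : IsVal v f b) : IsVal v (-f) (-b) := by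
  unfold IsVal at *
  have e : -f - algebraMap K F (-b) = -(f - algebraMap K F b) := by
    rw [map_neg]; ring
  rw [e, ord_neg, neg_eq_zero]
  exact hf

theorem IsVal.sub {v : Place K F} {f g : F} {b c : K} (hf : IsVal v f b) (hg : IsVal v g c) :
    IsVal v (f - g) (b - c) := by
  have := hf.add hg.neg
  rwa [← sub_eq_add_neg, ← sub_eq_add_neg] at this

/-- product of a regular function with a function vanishing at `v` -/
theorem isVal_zero_mul (v : Place K F) {f g : F} (hf : IsVal v f 0) (hg : g = 0 ∨ 0 ≤ v.ord g) :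
    IsVal v (f * g) 0 := by
  rw [isVal_zero_iff] at hf ⊢
  rcases eq_or_ne f 0 with rfl | hf0
  · left; simp
  rcases eq_or_ne g 0 with rfl | hg0
  · left; simp
  right
  rw [v.ord_mul hf0 hg0]
  have h1 := hf.resolve_left hf0
  have h2 := hg.resolve_left hg0
  omega

theorem IsVal.mul {v : Place K F} {f g : F} {b c : K} (hf : IsVal v f b) (hg : IsVal v g c) :
    IsVal v (f * g) (b * c) := by
  have e : f * g = (f - algebraMap K F b) * g + algebraMap K F b * (g - algebraMap K F c)
      + algebraMap K F (b * c) := by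
    rw [map_mul]; ring
  have h1 : IsVal v ((f - algebraMap K F b) * g) 0 :=
    isVal_zero_mul v ((isVal_zero_iff v _).mpr hf) hg.ord_nonneg
  have h2 : IsVal v (algebraMap K F b * (g - algebraMap K F c)) 0 := by
    rw [mul_comm]
    exact isVal_zero_mul v ((isVal_zero_iff v _).mpr hg) (Or.inr (ord_algebraMap v b).ge)
  have h3 := (h1.add h2).add (isVal_const v (b * c))
  rw [← e] at h3
  simpa using h3

theorem IsVal.unique {v : Place K F} {f : F} {b c : K} (hb : IsVal v f b) (hc : IsVal v f c) :
    b = c := by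
  by_contra hne
  have h := hb.sub hc
  rw [sub_self] at h
  unfold IsVal at h
  rw [zero_sub, ord_neg, neg_eq_zero] at h
  have hcb : b - c ≠ 0 := sub_ne_zero.mpr hne
  rcases h with h0 | h0
  · exact hcb ((map_eq_zero _).mp h0)
  · rw [ord_algebraMap] at h0
    exact lt_irrefl _ h0

/-- a function with nonzero value is a unit at `v` -/
theorem IsVal.ne_zero {v : Place K F} {f : F} {b : K} (h : IsVal v f b) (hb : b ≠ 0) :
    f ≠ 0 := by
  rintro rfl
  exact hb (h.unique (isVal_zero v))

theorem IsVal.ord_eq_zero {v : Place K F} {f : F} {b : K} (h : IsVal v f b) (hb : b ≠ 0) :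
    v.ord f = 0 := by
  have hf0 := h.ne_zero hb
  have h1 := h.ord_nonneg.resolve_left hf0
  by_contra hne
  have hpos : 0 < v.ord f := lt_of_le_of_ne h1 (Ne.symm hne)
  exact hb (h.unique (isVal_of_ord_pos v hpos))

theorem IsVal.inv {v : Place K F} {f : F} {b : K} (h : IsVal v f b) (hb : b ≠ 0) :
    IsVal v f⁻¹ b⁻¹ := by
  have hf0 := h.ne_zero hb
  have hord := h.ord_eq_zero hb
  have hbF : algebraMap K F b ≠ 0 := (map_ne_zero _).mpr hb
  have e : f⁻¹ - algebraMap K F b⁻¹ = -(f - algebraMap K F b) * (f⁻¹ * algebraMap K F b⁻¹) := by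
    rw [map_inv₀]
    field_simp
    ring
  unfold IsVal
  rw [e]
  have h0 : IsVal v (-(f - algebraMap K F b)) 0 := by
    have := ((isVal_zero_iff v _).mpr h).neg
    simpa using this
  have hreg : f⁻¹ * algebraMap K F b⁻¹ = 0 ∨ 0 ≤ v.ord (f⁻¹ * algebraMap K F b⁻¹) := by
    right
    rw [v.ord_mul (inv_ne_zero hf0) ((map_ne_zero _).mpr (inv_ne_zero hb)), v.ord_inv, hord,
      ord_algebraMap]
    simp
  exact (isVal_zero_iff v _).mp (isVal_zero_mul v h0 hreg)

theorem IsVal.div {v : Place K F} {f g : F} {b c : K} (hf : IsVal v f b) (hg : IsVal v g c)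
    (hc : c ≠ 0) : IsVal v (f / g) (b / c) := by
  rw [div_eq_mul_inv, div_eq_mul_inv]
  exact hf.mul (hg.inv hc)

theorem IsVal.pow {v : Place K F} {f : F} {b : K} (h : IsVal v f b) (n : ℕ) :
    IsVal v (f ^ n) (b ^ n) := by
  induction n with
  | zero => simpa using isVal_one v
  | succ n ih => rw [pow_succ, pow_succ]; exact ih.mul h

theorem IsVal.zpow {v : Place K F} {f : F} {b : K} (h : IsVal v f b) (hb : b ≠ 0) (n : ℤ) :
    IsVal v (f ^ n) (b ^ n) := by
  cases n with
  | ofNat n => simpa using h.pow n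
  | negSucc n =>
    rw [zpow_negSucc, zpow_negSucc]
    exact (h.pow (n + 1)).inv (pow_ne_zero _ hb)

theorem isVal_prod {ι : Type*} (v : Place K F) (s : Finset ι) (f : ι → F) (b : ι → K)
    (h : ∀ i ∈ s, IsVal v (f i) (b i)) : IsVal v (∏ i ∈ s, f i) (∏ i ∈ s, b i) := by
  classical
  induction s using Finset.induction_on with
  | empty => simpa using isVal_one v
  | insert i s hi ih =>
    rw [Finset.prod_insert hi, Finset.prod_insert hi]
    exact (h i (Finset.mem_insert_self i s)).mul
      (ih fun j hj => h j (Finset.mem_insert_of_mem hj))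

/-- at a place of degree one every regular function has a value -/
theorem exists_isVal (v : Place K F) (hv : v.deg = 1) {f : F} (hf : f = 0 ∨ 0 ≤ v.ord f) :
    ∃ b : K, IsVal v f b := by
  rcases eq_or_ne f 0 with rfl | hf0
  · exact ⟨0, isVal_zero v⟩
  · exact exists_const_sub v hv (hf.resolve_left hf0)

/-- the value of `f` at `v` (junk value `0` if `f` has no value at `v`) -/
def pval (v : Place K F) (f : F) : K :=
  haveI := Classical.propDecidable
  if h : ∃ b, IsVal v f b then h.choose else 0

theorem isVal_pval {v : Place K F} {f : F} (h : ∃ b, IsVal v f b) : IsVal v f (pval v f) := by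
  unfold pval
  rw [dif_pos h]
  exact h.choose_spec

theorem IsVal.pval_eq {v : Place K F} {f : F} {b : K} (h : IsVal v f b) : pval v f = b :=
  (isVal_pval ⟨b, h⟩).unique h

theorem isVal_pval_of_ord_nonneg (v : Place K F) (hv : v.deg = 1) {f : F}
    (hf : f = 0 ∨ 0 ≤ v.ord f) : IsVal v f (pval v f) :=
  isVal_pval (exists_isVal v hv hf)

/-- a unit at `v` has a nonzero value -/
theorem pval_ne_zero_of_ord_eq_zero (v : Place K F) (hv : v.deg = 1) {f : F} (hf0 : f ≠ 0)
    (hf : v.ord f = 0) : pval v f ≠ 0 := by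
  intro h0
  have h := isVal_pval_of_ord_nonneg v hv (Or.inr hf.ge)
  rw [h0, isVal_zero_iff] at h
  rcases h with h | h
  · exact hf0 h
  · omega

theorem pval_const (v : Place K F) (b : K) : pval v (algebraMap K F b) = b :=
  (isVal_const v b).pval_eq

end Fermat.Agent.S17.H890
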