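import Mathlib

/-!
# S17 / H / CHOW (helper890): interpolation of separately polynomial functions (Mathlib only)

* `exists_nodes` : in a finite dimensional space, a separating set `s` of linear forms contains
  finitely many forms `φ` with "dual vectors" `ℓ φ` such that `p = ∑ φ(p) • ℓ φ` for all `p`.
* `exists_bipoly` : a function `f σ τ` on `U × Kⁿ` (`U` Zariski dense) which is a polynomial of
  bounded degree in `τ` for each `σ ∈ U` and a polynomial in `σ ∈ U` for each `τ ∈ U` is the
  restriction of ONE polynomial in `(σ, τ)`.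
* `eq_zero_of_eval_eq_zero_on` : a polynomial vanishing on the nonvanishing locus of a nonzero
  polynomial is zero (infinite field).
-/

set_option autoImplicit false

noncomputable section

namespace Fermat.Agent.S17.H890

open MvPolynomial

theorem exists_nodes {K V : Type*} [Field K] [AddCommGroup V] [Module K V]
    [FiniteDimensional K V] (s : Set (Module.Dual K V)) (h : ∀ z : V, z ≠ 0 → ∃ f ∈ s, f z ≠ 0) :
    ∃ (t : Finset (Module.Dual K V)) (ℓ : Module.Dual K V → V), ↑t ⊆ s ∧
      ∀ p : V, p = ∑ φ ∈ t, φ p • ℓ φ := by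
  classical
  have hspan : Submodule.span K s = ⊤ := Submodule.span_eq_top_of_ne_zero h
  have hfg : (Submodule.span K s).FG := by
    rw [hspan]
    exact Module.Finite.fg_top
  obtain ⟨t, hts, ht⟩ := (Submodule.fg_span_iff_fg_span_finset_subset s).mp hfg
  rw [hspan] at ht
  -- the evaluation map
  let E : V →ₗ[K] (t → K) := LinearMap.pi fun φ => (φ : Module.Dual K V)
  have hE : Function.Injective E := by
    rw [← LinearMap.ker_eq_bot, LinearMap.ker_eq_bot']
    intro p hp
    rw [← Module.forall_dual_apply_eq_zero_iff K]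
    intro ψ
    have hψ : ψ ∈ Submodule.span K (t : Set (Module.Dual K V)) := by rw [← ht]; trivial
    induction hψ using Submodule.span_induction with
    | mem φ hφ =>
      have := congrFun hp ⟨φ, hφ⟩
      simpa [E] using this
    | zero => simp
    | add x y _ _ hx hy => rw [LinearMap.add_apply, hx, hy, add_zero]
    | smul a x _ hx => rw [LinearMap.smul_apply, hx, smul_zero]
  obtain ⟨L, hL⟩ := LinearMap.exists_leftInverse_of_injective E (LinearMap.ker_eq_bot.mpr hE)
  refine ⟨t, fun φ => if hφ : φ ∈ t then L (Pi.single ⟨φ, hφ⟩ 1) else 0, hts, ?_⟩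
  intro p
  have h1 : p = L (E p) := by
    have := congrArg (fun g => g p) hL
    simpa using this.symm
  have h2 : E p = ∑ i : t, (i : Module.Dual K V) p • (Pi.single i (1 : K) : t → K) := by
    ext j
    simp [E, Finset.sum_apply, Pi.single_apply]
  rw [h2, map_sum] at h1
  rw [← Finset.sum_attach]
  conv_lhs => rw [h1]
  rw [Finset.univ_eq_attach]
  refine Finset.sum_congr rfl fun i _ => ?_
  rw [map_smul]
  simp only [Finset.coe_mem, dite_true, Subtype.coe_eta]

/-- **Interpolation.**  A function on `U × Kⁿ`, `U` Zariski dense, which is separately polynomial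
(of bounded degree in the second variable) is a polynomial. -/
theorem exists_bipoly {K : Type*} [Field K] {n : ℕ} (m : ℕ) (U : Set (Fin n → K))
    (hU : ∀ p : MvPolynomial (Fin n) K, (∀ x ∈ U, eval x p = 0) → p = 0)
    (f : (Fin n → K) → (Fin n → K) → K)
    (h1 : ∀ σ ∈ U, ∃ p : MvPolynomial (Fin n) K, p.totalDegree ≤ m ∧ ∀ τ, f σ τ = eval τ p)
    (h2 : ∀ τ ∈ U, ∃ q : MvPolynomial (Fin n) K, ∀ σ ∈ U, f σ τ = eval σ q) :
    ∃ R : MvPolynomial (Fin n ⊕ Fin n) K, ∀ σ ∈ U, ∀ τ, f σ τ = eval (Sum.elim σ τ) R := by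
  classical
  -- evaluation functionals on the space of polynomials of degree `≤ m`
  let ev : (Fin n → K) → Module.Dual K (restrictTotalDegree (Fin n) K m) := fun τ =>
    (MvPolynomial.aeval τ : MvPolynomial (Fin n) K →ₐ[K] K).toLinearMap ∘ₗ
      (restrictTotalDegree (Fin n) K m).subtype
  have hev : ∀ (τ : Fin n → K) (p : restrictTotalDegree (Fin n) K m),
      ev τ p = eval τ (p : MvPolynomial (Fin n) K) := by
    intro τ p
    simp [ev]
  have hs : ∀ z : restrictTotalDegree (Fin n) K m, z ≠ 0 → ∃ φ ∈ ev '' U, φ z ≠ 0 := by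
    intro z hz
    by_contra hcon
    push Not at hcon
    apply hz
    apply Subtype.ext
    apply hU
    intro x hx
    have := hcon (ev x) ⟨x, hx, rfl⟩
    rwa [hev] at this
  obtain ⟨t, ℓ, hts, hℓ⟩ := exists_nodes (ev '' U) hs
  have hch : ∀ φ : Module.Dual K (restrictTotalDegree (Fin n) K m), φ ∈ t →
      ∃ τ : Fin n → K, τ ∈ U ∧ ev τ = φ := fun φ hφ => hts hφ
  choose! τ' hτ'U hτ' using hch
  choose! q hq using h2
  refine ⟨∑ φ ∈ t, rename Sum.inl (q (τ' φ)) *
    rename Sum.inr ((ℓ φ : restrictTotalDegree (Fin n) K m) : MvPolynomial (Fin n) K), ?_⟩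
  intro σ hσ τ
  obtain ⟨p, hp, hfp⟩ := h1 σ hσ
  have hpV : p ∈ restrictTotalDegree (Fin n) K m := (mem_restrictTotalDegree _ _ _).mpr hp
  have h3 := hℓ ⟨p, hpV⟩
  have h4 : p = ∑ φ ∈ t, φ ⟨p, hpV⟩ •
      ((ℓ φ : restrictTotalDegree (Fin n) K m) : MvPolynomial (Fin n) K) := by
    have := congrArg (Subtype.val) h3
    simpa using this
  rw [hfp τ]
  conv_lhs => rw [h4]
  rw [map_sum, map_sum]
  refine Finset.sum_congr rfl fun φ hφ => ?_
  rw [map_mul, eval_rename, eval_rename, smul_eval]
  congr 1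
  have h5 : φ ⟨p, hpV⟩ = eval (τ' φ) p := by
    have h6 := hev (τ' φ) ⟨p, hpV⟩
    rw [hτ' φ hφ] at h6
    exact h6
  rw [h5, ← hfp, hq (τ' φ) (hτ'U φ hφ) σ hσ]
  rfl

/-- A polynomial vanishing on the nonvanishing locus of a nonzero polynomial is zero. -/
theorem eq_zero_of_eval_eq_zero_on {K : Type*} [Field K] [Infinite K] {ι : Type*}
    (H : MvPolynomial ι K) (hH : H ≠ 0) (G : MvPolynomial ι K)
    (h : ∀ x : ι → K, eval x H ≠ 0 → eval x G = 0) : G = 0 := by
  have h1 : G * H = 0 := by
    apply MvPolynomial.funext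
    intro x
    rw [map_mul, map_zero]
    by_cases hx : eval x H = 0
    · rw [hx, mul_zero]
    · rw [h x hx, zero_mul]
  exact (mul_eq_zero.mp h1).resolve_right hH

end Fermat.Agent.S17.H890
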