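import Mathlib
import Fermat.Agent.S17.H890.Val
import Fermat.Agent.S37.H100.FibreCharpoly

/-!
# S17 / H / CHOW (helper890): the value of a norm at a place

`F'/F` a finite extension of function fields over an algebraically closed field `K` of
characteristic zero, `v` a place of `F`.  If `g ∈ F'` has the value `a w` at every place `w` of
`F'` over `v`, then `N_{F'/F}(g)` has the value `∏_{w | v} (a w) ^ e(w | v)` at `v`.
(Constant coefficient of `S37.H100.fibre_charpoly`.)
-/

set_option autoImplicit false

noncomputable section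

namespace Fermat.Agent.S17.H890

open AlgebraicCurve Polynomial Fermat.Agent.Lib.RR Fermat.Agent.S37.H100

variable {K F F' : Type*} [Field K] [Field F] [Field F'] [Algebra K F] [Algebra K F']
  [Algebra F F'] [IsScalarTower K F F'] [FiniteDimensional F F'] [CharZero F]

theorem isVal_coe_evPlace (v : Place K F) (hv : v.deg = 1) (x : v.toValuationSubring) :
    IsVal v (x : F) (evPlace v hv x) := by
  have h := sub_algebraMap_evPlace_mem v hv x
  rw [mem_maximalIdeal_iff] at h
  exact h

theorem coeff_zero_prod_X_sub_C_pow {ι : Type*} (s : Finset ι) (a : ι → K) (e : ι → ℕ) :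
    (∏ w ∈ s, (X - C (a w)) ^ e w : K[X]).coeff 0 =
      (-1) ^ (∑ w ∈ s, e w) * ∏ w ∈ s, a w ^ e w := by
  rw [coeff_zero_eq_eval_zero, eval_prod, ← Finset.prod_pow_eq_pow_sum,
    ← Finset.prod_mul_distrib]
  refine Finset.prod_congr rfl fun w _ => ?_
  rw [eval_pow, eval_sub, eval_X, eval_C, zero_sub, neg_pow]

theorem natDegree_prod_X_sub_C_pow {ι : Type*} (s : Finset ι) (a : ι → K) (e : ι → ℕ) :
    (∏ w ∈ s, (X - C (a w)) ^ e w : K[X]).natDegree = ∑ w ∈ s, e w := by
  rw [natDegree_prod_of_monic _ _ (fun w _ => (monic_X_sub_C (a w)).pow (e w))]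
  refine Finset.sum_congr rfl fun w _ => ?_
  rw [natDegree_pow, natDegree_X_sub_C, mul_one]

/-- **Value of the norm.** -/
theorem isVal_norm [IsAlgClosed K] (v : Place K F) (hv : v.deg = 1)
    (hdeg' : ∀ w : Place K F', w.deg = 1)
    (s : Finset (Place K F')) (hs : ∀ w, w ∈ s ↔ w.restrict F = v)
    (g : F') (a : Place K F' → K) (ha : ∀ w ∈ s, IsVal w g (a w)) :
    IsVal v (Algebra.norm F g) (∏ w ∈ s, a w ^ w.ramificationIndex F) := by
  obtain ⟨P, hmon, hP1, hP2⟩ := fibre_charpoly v hv hdeg' s hs g a ha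
  -- degrees
  have hdeg : P.natDegree = Module.finrank F F' := by
    have h1 : (P.map (algebraMap v.toValuationSubring F)).natDegree = P.natDegree :=
      hmon.natDegree_map _
    rw [← h1, hP1, LinearMap.charpoly_natDegree]
  have hdeg2 : P.natDegree = ∑ w ∈ s, w.ramificationIndex F := by
    have h1 : (P.map (evPlace v hv)).natDegree = P.natDegree := hmon.natDegree_map _
    rw [← h1, hP2, natDegree_prod_X_sub_C_pow]
  -- the norm as an element of `O_v`
  have hnorm : Algebra.norm F g =
      (((-1) ^ Module.finrank F F' * P.coeff 0 : v.toValuationSubring) : F) := by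
    rw [Algebra.norm_apply, LinearMap.det_eq_sign_charpoly_coeff]
    have h2 : (Algebra.lmul F F' g) = LinearMap.mulLeft F g := rfl
    rw [h2, ← hP1, coeff_map]
    push_cast
    rfl
  rw [hnorm]
  have hval := isVal_coe_evPlace v hv ((-1) ^ Module.finrank F F' * P.coeff 0)
  have e1 : evPlace v hv ((-1) ^ Module.finrank F F' * P.coeff 0) =
      ∏ w ∈ s, a w ^ w.ramificationIndex F := by
    rw [map_mul, map_pow, map_neg, map_one, ← coeff_map, hP2, coeff_zero_prod_X_sub_C_pow,
      ← hdeg, hdeg2, ← mul_assoc, ← pow_add, ← two_mul, pow_mul]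
    simp
  rw [e1] at hval
  exact hval

end Fermat.Agent.S17.H890
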