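import Mathlib
import Fermat.Prelude.Def_AlgebraicCurve_DivisorPushPull
import Fermat.Agent.Lib.RR.Zeros
import Fermat.Agent.S17.H890.Val

/-!
# S17 / H / CHOW (helper890): places of `F` over the places of a rational subfield `K(g)`

`F₀ = K⟮g⟯ ⊆ F`.  Let `x ∈ F` with `K⟮x⟯ = K⟮g⟯` (e.g. `x = g - c` or `x = g⁻¹`).  For the places
`w` of `F` with `ord_w x > 0`:

* the ramification index over `F₀` is `ord_w x` (`ramificationIndex_eq_ord`);
* they all restrict to the same place of `F₀` (`restrict_eq_of_ord_pos`), and they are all the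
  places over it (`ord_pos_of_restrict_eq`).
-/

set_option autoImplicit false

noncomputable section

namespace Fermat.Agent.S17.H890

open AlgebraicCurve Polynomial IntermediateField Fermat.Agent.Lib.RR

variable {K F : Type*} [Field K] [Field F] [Algebra K F]

/-- Lemma A of `Lib/RR/Zeros` for a second generator `x` of `K⟮g⟯`. -/
theorem exists_ord_eq_mul_of_adjoin_eq {g x : F} (hx : K⟮x⟯ = K⟮g⟯) {f : F} (hf : f ∈ K⟮g⟯)
    (hf0 : f ≠ 0) : ∃ n : ℤ, ∀ v : Place K F, 0 < v.ord x → v.ord f = n * v.ord x := by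
  rw [← hx] at hf
  have h0 : (⟨f, hf⟩ : K⟮x⟯) ≠ 0 := fun h => hf0 (congrArg Subtype.val h)
  exact exists_ord_eq_mul ⟨f, hf⟩ h0

variable {g x : F} [Algebra.IsIntegral K⟮g⟯ F]

theorem ramificationIndex_eq_ord (hx : K⟮x⟯ = K⟮g⟯) (w : Place K F) (hw : 0 < w.ord x) :
    (w.ramificationIndex K⟮g⟯ : ℤ) = w.ord x := by
  have hxmem : x ∈ K⟮g⟯ := hx ▸ mem_adjoin_simple_self K x
  have hx0 : x ≠ 0 := ne_zero_of_ord_ne_zero w hw.ne'
  apply le_antisymm
  · have h0 : (⟨x, hxmem⟩ : K⟮g⟯) ≠ 0 := fun h => hx0 (congrArg Subtype.val h)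
    exact w.ramificationIndex_le_ord (F := K⟮g⟯) (f := ⟨x, hxmem⟩) h0 hw
  · obtain ⟨f, hf0, hfe⟩ := w.exists_ord_eq_ramificationIndex (F := K⟮g⟯)
    have hfF : (f : F) ≠ 0 := fun h => hf0 (Subtype.ext h)
    obtain ⟨n, hn⟩ := exists_ord_eq_mul_of_adjoin_eq hx f.2 hfF
    have h1 := hn w hw
    have hpos := w.ramificationIndex_pos (F := K⟮g⟯)
    have h2 : w.ord (f : F) = (w.ramificationIndex K⟮g⟯ : ℤ) := hfe
    rw [h2] at h1
    have hn1 : 1 ≤ n := by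
      by_contra hcon
      have hn0 : n ≤ 0 := by omega
      have : n * w.ord x ≤ 0 := mul_nonpos_of_nonpos_of_nonneg hn0 hw.le
      omega
    rw [h1]
    nlinarith

theorem restrict_le_of_ord_pos (hx : K⟮x⟯ = K⟮g⟯) (w w' : Place K F) (hw : 0 < w.ord x)
    (hw' : 0 < w'.ord x) :
    (w.restrict K⟮g⟯).toValuationSubring ≤ (w'.restrict K⟮g⟯).toValuationSubring := by
  intro f hf
  rw [Place.mem_restrict_iff] at hf ⊢
  rcases eq_or_ne f 0 with rfl | hf0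
  · simp
  have hfF : (f : F) ≠ 0 := fun h => hf0 (Subtype.ext h)
  obtain ⟨n, hn⟩ := exists_ord_eq_mul_of_adjoin_eq hx f.2 hfF
  have h1 : 0 ≤ w.ord (f : F) := ord_nonneg_of_mem w hf
  rw [hn w hw] at h1
  have hn0 : 0 ≤ n := by
    by_contra hcon
    have : n * w.ord x < 0 := mul_neg_of_neg_of_pos (by omega) hw
    omega
  apply mem_of_ord_nonneg
  show 0 ≤ w'.ord (f : F)
  rw [hn w' hw']
  exact mul_nonneg hn0 hw'.le

theorem restrict_eq_of_ord_pos (hx : K⟮x⟯ = K⟮g⟯) (w w' : Place K F) (hw : 0 < w.ord x)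
    (hw' : 0 < w'.ord x) : w.restrict K⟮g⟯ = w'.restrict K⟮g⟯ :=
  place_eq_of_le (restrict_le_of_ord_pos hx w w' hw hw')

theorem ord_pos_of_restrict_eq (hx : K⟮x⟯ = K⟮g⟯) (w w' : Place K F) (hw : 0 < w.ord x)
    (h : w'.restrict K⟮g⟯ = w.restrict K⟮g⟯) : 0 < w'.ord x := by
  have hxmem : x ∈ K⟮g⟯ := hx ▸ mem_adjoin_simple_self K x
  have h1 := w.ord_restrict (F := K⟮g⟯) ⟨x, hxmem⟩
  have h2 := w'.ord_restrict (F := K⟮g⟯) ⟨x, hxmem⟩
  have e1 : algebraMap K⟮g⟯ F ⟨x, hxmem⟩ = x := rfl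
  rw [e1] at h1 h2
  rw [h] at h2
  have hp := w.ramificationIndex_pos (F := K⟮g⟯)
  have hp' := w'.ramificationIndex_pos (F := K⟮g⟯)
  have h3 : 0 < (w.restrict K⟮g⟯).ord ⟨x, hxmem⟩ := by
    by_contra hcon
    have : (w.ramificationIndex K⟮g⟯ : ℤ) * (w.restrict K⟮g⟯).ord ⟨x, hxmem⟩ ≤ 0 :=
      mul_nonpos_of_nonneg_of_nonpos (by omega) (by omega)
    omega
  rw [h2]
  exact mul_pos (by omega) h3

end Fermat.Agent.S17.H890
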