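import Mathlib
import Fermat.Agent.S17.H890.NormVal
import Fermat.Agent.S17.H890.PLine
import Fermat.Agent.Lib.FF.Norm
import Fermat.Agent.Lib.RR.Basic
import Fermat.Agent.S24.FFDegree

/-!
# S17 / H / CHOW (helper890): Weil reciprocity, norm form

`F / K` a function field (`FF1 K F`), `K` algebraically closed of characteristic zero.
`g ∈ F` nonconstant, `u ∈ F` nonzero, `u` a unit at the zeros of `g`, and `ord_v u = ord_v g` at
the poles of `g`.  Then

  `∏_{g(v) = 0} u(v)^{ord_v g} = ∏_{g(v) = ∞} (u/g)(v)^{-ord_v g} · ∏_{ord_v u ≠ 0, g(v) ≠ ∞} (-g(v))^{ord_v u}`.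

Proof: `N_{F/K(g)}(u) = λ ∏ (g - g(A))^{ord_A u}` (compare divisors), evaluate at `g = 0` and at
`g = ∞` with the norm value formula `isVal_norm`.
-/

set_option autoImplicit false
set_option linter.unusedSectionVars false

noncomputable section

namespace Fermat.Agent.S17.H890

open AlgebraicCurve IntermediateField Fermat.Agent.Lib.RR

variable {K F : Type*} [Field K] [Field F] [Algebra K F]

section general

theorem ord_prod_zpow {ι : Type*} (v : Place K F) (s : Finset ι) (f : ι → F) (n : ι → ℤ)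
    (hf : ∀ i ∈ s, f i ≠ 0) :
    v.ord (∏ i ∈ s, f i ^ n i) = ∑ i ∈ s, n i * v.ord (f i) := by
  classical
  induction s using Finset.induction_on with
  | empty => simp [Place.ord_one]
  | insert i s hi ih =>
    rw [Finset.prod_insert hi, Finset.sum_insert hi]
    have h1 : f i ^ n i ≠ 0 := zpow_ne_zero _ (hf i (Finset.mem_insert_self i s))
    have h2 : ∏ j ∈ s, f j ^ n j ≠ 0 :=
      Finset.prod_ne_zero_iff.mpr fun j hj =>
        zpow_ne_zero _ (hf j (Finset.mem_insert_of_mem hj))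
    rw [v.ord_mul h1 h2, v.ord_zpow, ih fun j hj => hf j (Finset.mem_insert_of_mem hj)]

/-- a function without zeros and poles is a nonzero constant -/
theorem exists_const_of_ord_eq_zero [FF1 K F] {f : F} (hf : f ≠ 0)
    (h : ∀ v : Place K F, v.ord f = 0) : ∃ c : K, c ≠ 0 ∧ f = algebraMap K F c := by
  have hmem : f ∈ riemannRochSpace (0 : Divisor K F) := by
    rw [mem_L_iff]
    intro v
    right
    rw [h v]
    simp
  rw [L_zero] at hmem
  obtain ⟨c, hc⟩ := hmem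
  rw [Algebra.linearMap_apply] at hc
  refine ⟨c, ?_, hc.symm⟩
  rintro rfl
  rw [map_zero] at hc
  exact hf hc.symm

end general

section norm

variable [IsAlgClosed K] [CharZero K] [FF1 K F]

theorem deg_restrict_eq_one {g : F} [Algebra.IsIntegral K⟮g⟯ F] (Q : Place K F) :
    (Q.restrict K⟮g⟯).deg = 1 := by
  have h := Q.deg_restrict_mul_inertiaDeg (F := K⟮g⟯)
  rw [deg_eq_one Q] at h
  exact Nat.eq_one_of_mul_eq_one_right h

/-- the order of `N_{F/K(g)}(u)` at a place over the zero of `x`, `K(x) = K(g)` -/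
theorem ord_norm_of_ord_pos {g x : F} (hg : Transcendental K g) (hx : K⟮x⟯ = K⟮g⟯)
    [FiniteDimensional K⟮g⟯ F] (u : F) (hu : u ≠ 0) (s : Finset (Place K F))
    (hs : ∀ w, w ∈ s ↔ 0 < w.ord x) (Q : Place K F) (hQ : 0 < Q.ord x) :
    Q.ord (algebraMap K⟮g⟯ F (Algebra.norm K⟮g⟯ u)) = Q.ord x * ∑ w ∈ s, w.ord u := by
  classical
  rw [Place.ord_restrict, ramificationIndex_eq_ord hx Q hQ]
  congr 1
  have H := Fermat.Agent.Lib.FF.pushforwardNormFormula (F := K⟮g⟯) (F' := F) hg u hu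
    (divOf u hu) (divOf_apply u hu) (Q.restrict K⟮g⟯)
  rw [← H, Divisor.pushforward_apply]
  have hfib : ∀ w : Place K F, w.restrict K⟮g⟯ = Q.restrict K⟮g⟯ ↔ w ∈ s := by
    intro w
    rw [hs]
    constructor
    · intro h
      exact ord_pos_of_restrict_eq hx Q w hQ h
    · intro h
      exact restrict_eq_of_ord_pos hx w Q h hQ
  have e1 : ∀ w ∈ (divOf u hu).support,
      (if w.restrict K⟮g⟯ = Q.restrict K⟮g⟯ then
        (divOf u hu) w * (w.inertiaDeg K⟮g⟯ : ℤ) else 0) =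
      if w ∈ s then w.ord u else 0 := by
    intro w _
    rw [Fermat.Agent.Lib.FF.prelude_inertiaDeg_eq_one hg w, divOf_apply]
    simp only [hfib w, Nat.cast_one, mul_one]
  rw [Finset.sum_congr rfl e1, ← Finset.sum_filter]
  apply Finset.sum_subset
  · intro w hw
    exact (Finset.mem_filter.mp hw).2
  · intro w hw hnot
    by_contra hne
    apply hnot
    rw [Finset.mem_filter, Finsupp.mem_support_iff, divOf_apply]
    exact ⟨hne, hw⟩

end norm

section main

variable [IsAlgClosed K] [CharZero K] [FF1 K F]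

theorem finiteDimensional_adjoin (g : F) (hg : Transcendental K g) :
    FiniteDimensional K⟮g⟯ F := by
  obtain ⟨x, hx, hfin⟩ := FF1.exists_finite (K := K) (F := F)
  exact Fermat.Agent.S24.FF.finiteDimensional_adjoin_of_transcendental hx hg

theorem sum_ord_eq_zero {u : F} (hu : u ≠ 0) (s : Finset (Place K F))
    (hs : ∀ v : Place K F, v.ord u ≠ 0 → v ∈ s) : ∑ v ∈ s, v.ord u = 0 := by
  classical
  have h := degree_divOf (K := K) u hu
  rw [degree_eq_sum] at h
  rw [← h]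
  symm
  apply Finset.sum_subset_zero_on_sdiff
  · intro v hv
    rw [Finsupp.mem_support_iff, divOf_apply] at hv
    exact hs v hv
  · intro v hv
    rw [Finset.mem_sdiff, Finsupp.mem_support_iff, divOf_apply, not_not] at hv
    exact hv.2
  · intro v _
    rw [divOf_apply, deg_eq_one v]
    simp

theorem ord_sub_const_of_isVal_ne (Q : Place K F) {g : F} {c c' : K} (h : IsVal Q g c')
    (hne : c ≠ c') : Q.ord (g - algebraMap K F c) = 0 := by
  have h1 : IsVal Q (g - algebraMap K F c) (c' - c) := h.sub (isVal_const Q c)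
  exact h1.ord_eq_zero (sub_ne_zero.mpr hne.symm)

theorem ord_sub_const_of_ord_neg (Q : Place K F) {g : F} (hQ : Q.ord g < 0) (c : K) :
    Q.ord (g - algebraMap K F c) = Q.ord g := by
  rcases eq_or_ne c 0 with rfl | hc
  · rw [map_zero, sub_zero]
  have hg0 : g ≠ 0 := ne_zero_of_ord_ne_zero Q hQ.ne
  have hc0 : -algebraMap K F c ≠ 0 := neg_ne_zero.mpr ((map_ne_zero _).mpr hc)
  rw [sub_eq_add_neg]
  apply ord_add_eq_of_lt Q hg0 hc0
  rw [ord_neg, ord_algebraMap]
  exact hQ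

theorem isVal_algebraMap_of_restrict {g : F} [Algebra.IsIntegral K⟮g⟯ F] (Q : Place K F)
    {h : K⟮g⟯} {b : K} (hv : IsVal (Q.restrict K⟮g⟯) h b) :
    IsVal Q (algebraMap K⟮g⟯ F h) b := by
  have e : algebraMap K⟮g⟯ F h - algebraMap K F b =
      algebraMap K⟮g⟯ F (h - algebraMap K K⟮g⟯ b) := by
    rw [map_sub, ← IsScalarTower.algebraMap_apply]
  unfold IsVal at hv ⊢
  rw [e]
  rcases hv with h0 | hpos
  · left
    rw [h0, map_zero]
  · right
    rw [Place.ord_restrict]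
    exact mul_pos (by exact_mod_cast Q.ramificationIndex_pos (F := K⟮g⟯)) hpos

/-- Step 1: `N_{F/K(g)}(u) = λ ∏_{A ∈ T} (g - g(A))^{ord_A u}`. -/
theorem norm_eq_const_mul_prod (g u : F) (hg : Transcendental K g) (hu : u ≠ 0)
    [FiniteDimensional K⟮g⟯ F]
    (S0 Si T : Finset (Place K F))
    (hS0 : ∀ v, v ∈ S0 ↔ 0 < v.ord g)
    (hSi : ∀ v, v ∈ Si ↔ v.ord g < 0)
    (hT : ∀ v, v ∈ T ↔ (v.ord u ≠ 0 ∧ 0 ≤ v.ord g))
    (h0 : ∀ v ∈ S0, v.ord u = 0)
    (hi : ∀ v ∈ Si, v.ord u = v.ord g)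
    (c : Place K F → K)
    (hc : ∀ v ∈ T, IsVal v g (c v))
    (hcne : ∀ v ∈ T, c v ≠ 0)
    (hsumT : ∑ v ∈ T, v.ord u = (Module.finrank K⟮g⟯ F : ℤ)) :
    ∃ lam : K, algebraMap K⟮g⟯ F (Algebra.norm K⟮g⟯ u) =
      algebraMap K F lam * ∏ A ∈ T, (g - algebraMap K F (c A)) ^ (A.ord u) := by
  classical
  have hg0 : g ≠ 0 := fun h => hg (h ▸ isAlgebraic_zero)
  have hgc : ∀ c : K, g - algebraMap K F c ≠ 0 := fun c h =>
    hg (by rw [sub_eq_zero.mp h]; exact isAlgebraic_algebraMap c)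
  have hsumi : ∑ v ∈ Si, v.ord g = -(Module.finrank K⟮g⟯ F : ℤ) :=
    Fermat.Agent.S24.FF.sum_ord_neg_eq_neg_finrank hg Si hSi
  have hh0 : Algebra.norm K⟮g⟯ u ≠ 0 := Algebra.norm_ne_zero_iff.mpr hu
  have hH0 : algebraMap K⟮g⟯ F (Algebra.norm K⟮g⟯ u) ≠ 0 := (map_ne_zero _).mpr hh0
  have hP0 : ∏ A ∈ T, (g - algebraMap K F (c A)) ^ (A.ord u) ≠ 0 :=
    Finset.prod_ne_zero_iff.mpr fun A _ => zpow_ne_zero _ (hgc _)
  have hordP : ∀ Q : Place K F, Q.ord (∏ A ∈ T, (g - algebraMap K F (c A)) ^ (A.ord u)) =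
      ∑ A ∈ T, A.ord u * Q.ord (g - algebraMap K F (c A)) :=
    fun Q => ord_prod_zpow Q T _ _ (fun A _ => hgc _)
  have hord : ∀ Q : Place K F, Q.ord (algebraMap K⟮g⟯ F (Algebra.norm K⟮g⟯ u)) =
      Q.ord (∏ A ∈ T, (g - algebraMap K F (c A)) ^ (A.ord u)) := by
    intro Q
    rw [hordP]
    rcases lt_trichotomy (Q.ord g) 0 with hQ | hQ | hQ
    · -- `Q` a pole of `g`
      have hx : K⟮g⁻¹⟯ = K⟮g⟯ := Fermat.Agent.S24.FF.adjoin_inv_eq g
      have hQ' : 0 < Q.ord g⁻¹ := by rw [Q.ord_inv]; omega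
      have hs : ∀ w, w ∈ Si ↔ 0 < w.ord g⁻¹ := fun w => by rw [hSi, w.ord_inv]; omega
      rw [ord_norm_of_ord_pos hg hx u hu Si hs Q hQ', Finset.sum_congr rfl hi, hsumi,
        Q.ord_inv]
      have e1 : ∀ A ∈ T, A.ord u * Q.ord (g - algebraMap K F (c A)) = A.ord u * Q.ord g :=
        fun A _ => by rw [ord_sub_const_of_ord_neg Q hQ]
      rw [Finset.sum_congr rfl e1, ← Finset.sum_mul, hsumT]
      ring
    · -- `g` a unit at `Q`
      have hval : IsVal Q g (pval Q g) := isVal_pval_of_ord_nonneg Q (deg_eq_one Q) (Or.inr hQ.ge)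
      set cQ : K := pval Q g with hcQ
      have hx : K⟮g - algebraMap K F cQ⟯ = K⟮g⟯ := Fermat.Agent.S24.FF.adjoin_sub_const_eq g cQ
      have hQ' : 0 < Q.ord (g - algebraMap K F cQ) := hval.resolve_left (hgc cQ)
      have := Fermat.Agent.S24.FF.finiteDimensional_adjoin_sub_const (K := K) g cQ
      have hfinite := Fermat.Agent.S24.FF.finite_setOf_ord_pos
        (Fermat.Agent.S24.FF.transcendental_sub_const hg cQ)
      have hs : ∀ w, w ∈ hfinite.toFinset ↔ 0 < w.ord (g - algebraMap K F cQ) := fun w => by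
        rw [Set.Finite.mem_toFinset]; rfl
      rw [ord_norm_of_ord_pos hg hx u hu hfinite.toFinset hs Q hQ']
      -- right hand side
      have e1 : ∀ A ∈ T, A.ord u * Q.ord (g - algebraMap K F (c A)) =
          if A ∈ hfinite.toFinset then Q.ord (g - algebraMap K F cQ) * A.ord u else 0 := by
        intro A hA
        by_cases hAc : c A = cQ
        · have : A ∈ hfinite.toFinset := by
            rw [hs, ← hAc]
            exact (hc A hA).resolve_left (hgc _)
          rw [if_pos this, hAc, mul_comm]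
        · have : A ∉ hfinite.toFinset := by
            rw [hs]
            intro hpos
            have h1 : IsVal A g cQ := Or.inr hpos
            exact hAc ((hc A hA).unique h1)
          rw [if_neg this, ord_sub_const_of_isVal_ne Q hval hAc, mul_zero]
      rw [Finset.sum_congr rfl e1, ← Finset.sum_filter, Finset.mul_sum]
      symm
      apply Finset.sum_subset
      · intro w hw
        exact (Finset.mem_filter.mp hw).2
      · intro w hw hnot
        have hwu : w.ord u = 0 := by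
          by_contra hne
          apply hnot
          rw [Finset.mem_filter, hT]
          refine ⟨⟨hne, ?_⟩, hw⟩
          have h1 : IsVal w g cQ := Or.inr ((hs w).mp hw)
          exact h1.ord_nonneg.resolve_left hg0
        rw [hwu, mul_zero]
    · -- `Q` a zero of `g`
      have hx : K⟮g⟯ = K⟮g⟯ := rfl
      rw [ord_norm_of_ord_pos hg hx u hu S0 hS0 Q hQ, Finset.sum_eq_zero h0, mul_zero]
      symm
      apply Finset.sum_eq_zero
      intro A hA
      rw [ord_sub_const_of_isVal_ne Q (isVal_of_ord_pos Q hQ) (hcne A hA), mul_zero]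
  -- `H = λ P`
  obtain ⟨lam, -, hlam⟩ := exists_const_of_ord_eq_zero (K := K)
    (f := algebraMap K⟮g⟯ F (Algebra.norm K⟮g⟯ u) /
      ∏ A ∈ T, (g - algebraMap K F (c A)) ^ (A.ord u)) (div_ne_zero hH0 hP0) (by
    intro Q
    rw [div_eq_mul_inv, Q.ord_mul hH0 (inv_ne_zero hP0), Q.ord_inv, hord Q]
    ring)
  exact ⟨lam, by rw [← hlam, div_mul_cancel₀ _ hP0]⟩

/-- Step 2: evaluation at the zeros of `g`. -/
theorem eval_at_zero (g u : F) [FiniteDimensional K⟮g⟯ F]
    (S0 : Finset (Place K F)) (hS0 : ∀ v, v ∈ S0 ↔ 0 < v.ord g) (hne : S0.Nonempty)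
    (a : Place K F → K) (ha : ∀ v ∈ S0, IsVal v u (a v))
    (T : Finset (Place K F)) (c : Place K F → K) (hcne : ∀ v ∈ T, c v ≠ 0)
    (n : Place K F → ℤ) (lam : K)
    (hHP : algebraMap K⟮g⟯ F (Algebra.norm K⟮g⟯ u) =
      algebraMap K F lam * ∏ A ∈ T, (g - algebraMap K F (c A)) ^ (n A)) :
    ∏ v ∈ S0, a v ^ (v.ord g) = lam * ∏ A ∈ T, (-(c A)) ^ (n A) := by
  classical
  obtain ⟨Q0, hQ0⟩ := hne
  have hcz : CharZero K⟮g⟯ := charZero_of_injective_algebraMap (algebraMap K K⟮g⟯).injective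
  have hQ0' : 0 < Q0.ord g := (hS0 Q0).mp hQ0
  have hfib0 : ∀ w, w ∈ S0 ↔ w.restrict K⟮g⟯ = Q0.restrict K⟮g⟯ := fun w => by
    rw [hS0]
    exact ⟨fun h => restrict_eq_of_ord_pos rfl w Q0 h hQ0',
      fun h => ord_pos_of_restrict_eq rfl Q0 w hQ0' h⟩
  have hv0 := isVal_algebraMap_of_restrict Q0
    (isVal_norm (Q0.restrict K⟮g⟯) (deg_restrict_eq_one Q0) (fun w => deg_eq_one w) S0 hfib0 u a ha)
  have hPval0 : IsVal Q0 (∏ A ∈ T, (g - algebraMap K F (c A)) ^ (n A))
      (∏ A ∈ T, (-(c A)) ^ (n A)) := by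
    apply isVal_prod
    intro A hA
    have h1 : IsVal Q0 (g - algebraMap K F (c A)) (0 - c A) :=
      (isVal_of_ord_pos Q0 hQ0').sub (isVal_const Q0 _)
    rw [zero_sub] at h1
    exact h1.zpow (neg_ne_zero.mpr (hcne A hA)) _
  have h2 : IsVal Q0 (algebraMap K⟮g⟯ F (Algebra.norm K⟮g⟯ u))
      (lam * ∏ A ∈ T, (-(c A)) ^ (n A)) := by
    rw [hHP]
    exact (isVal_const Q0 lam).mul hPval0
  rw [← hv0.unique h2]
  refine Finset.prod_congr rfl fun v hv => ?_
  rw [← ramificationIndex_eq_ord (g := g) rfl v ((hS0 v).mp hv), zpow_natCast]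

/-- Step 3: evaluation at the poles of `g`. -/
theorem eval_at_pole (g u : F) (hg0 : g ≠ 0) [FiniteDimensional K⟮g⟯ F]
    (Si : Finset (Place K F)) (hSi : ∀ v, v ∈ Si ↔ v.ord g < 0) (hne : Si.Nonempty)
    (b : Place K F → K) (hb : ∀ v ∈ Si, IsVal v (u / g) (b v))
    (T : Finset (Place K F)) (c : Place K F → K)
    (n : Place K F → ℤ) (hn : ∑ A ∈ T, n A = (Module.finrank K⟮g⟯ F : ℤ)) (lam : K)
    (hHP : algebraMap K⟮g⟯ F (Algebra.norm K⟮g⟯ u) =
      algebraMap K F lam * ∏ A ∈ T, (g - algebraMap K F (c A)) ^ (n A)) :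
    ∏ v ∈ Si, b v ^ (-(v.ord g)) = lam := by
  classical
  obtain ⟨Qi, hQi⟩ := hne
  have hcz : CharZero K⟮g⟯ := charZero_of_injective_algebraMap (algebraMap K K⟮g⟯).injective
  have hQi' : Qi.ord g < 0 := (hSi Qi).mp hQi
  have hQi'' : 0 < Qi.ord g⁻¹ := by rw [Qi.ord_inv]; omega
  have hxinv : K⟮g⁻¹⟯ = K⟮g⟯ := Fermat.Agent.S24.FF.adjoin_inv_eq g
  have hfibi : ∀ w, w ∈ Si ↔ w.restrict K⟮g⟯ = Qi.restrict K⟮g⟯ := fun w => by
    rw [hSi]
    constructor
    · intro h
      exact restrict_eq_of_ord_pos hxinv w Qi (by rw [w.ord_inv]; omega) hQi''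
    · intro h
      have h1 := ord_pos_of_restrict_eq hxinv Qi w hQi'' h
      rw [w.ord_inv] at h1
      omega
  have hvi := isVal_algebraMap_of_restrict Qi
    (isVal_norm (Qi.restrict K⟮g⟯) (deg_restrict_eq_one Qi) (fun w => deg_eq_one w) Si hfibi
      (u / g) b hb)
  have hnormg : Algebra.norm K⟮g⟯ g =
      (⟨g, mem_adjoin_simple_self K g⟩ : K⟮g⟯) ^ Module.finrank K⟮g⟯ F :=
    Algebra.norm_algebraMap (⟨g, mem_adjoin_simple_self K g⟩ : K⟮g⟯)
  have hnorm : algebraMap K⟮g⟯ F (Algebra.norm K⟮g⟯ (u / g)) * g ^ Module.finrank K⟮g⟯ F =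
      algebraMap K⟮g⟯ F (Algebra.norm K⟮g⟯ u) := by
    have h1 : Algebra.norm K⟮g⟯ (u / g) * Algebra.norm K⟮g⟯ g = Algebra.norm K⟮g⟯ u := by
      rw [← map_mul, div_mul_cancel₀ _ hg0]
    rw [← h1, hnormg, map_mul, map_pow]
    rfl
  have hprodg : ∏ A ∈ T, g ^ (n A) = g ^ Module.finrank K⟮g⟯ F := by
    have h1 : ∀ s : Finset (Place K F), ∏ A ∈ s, g ^ (n A) = g ^ (∑ A ∈ s, n A) := by
      intro s
      induction s using Finset.induction_on with
      | empty => simp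
      | insert i s hi ih => rw [Finset.prod_insert hi, Finset.sum_insert hi, ih, zpow_add₀ hg0]
    rw [h1, hn, zpow_natCast]
  have hPvali : IsVal Qi (∏ A ∈ T, ((g - algebraMap K F (c A)) / g) ^ (n A)) 1 := by
    have h1 : IsVal Qi (∏ A ∈ T, ((g - algebraMap K F (c A)) / g) ^ (n A))
        (∏ A ∈ T, (1 : K) ^ (n A)) := by
      apply isVal_prod
      intro A _
      have h2 : IsVal Qi (1 - algebraMap K F (c A) * g⁻¹) (1 - c A * 0) :=
        (isVal_one Qi).sub ((isVal_const Qi _).mul (isVal_of_ord_pos Qi hQi''))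
      rw [mul_zero, sub_zero] at h2
      have h3 : (g - algebraMap K F (c A)) / g = 1 - algebraMap K F (c A) * g⁻¹ := by
        field_simp
      rw [h3]
      exact h2.zpow one_ne_zero _
    simpa using h1
  have h4 : ∏ A ∈ T, ((g - algebraMap K F (c A)) / g) ^ (n A) =
      (∏ A ∈ T, (g - algebraMap K F (c A)) ^ (n A)) / g ^ Module.finrank K⟮g⟯ F := by
    rw [← hprodg, ← Finset.prod_div_distrib]
    refine Finset.prod_congr rfl fun A _ => ?_
    rw [div_zpow]
  have h3 : algebraMap K⟮g⟯ F (Algebra.norm K⟮g⟯ (u / g)) =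
      algebraMap K F lam * ∏ A ∈ T, ((g - algebraMap K F (c A)) / g) ^ (n A) := by
    rw [h4, ← mul_div_assoc, ← hHP, ← hnorm, mul_div_assoc, div_self (pow_ne_zero _ hg0),
      mul_one]
  have h2 : IsVal Qi (algebraMap K⟮g⟯ F (Algebra.norm K⟮g⟯ (u / g))) (lam * 1) := by
    rw [h3]
    exact (isVal_const Qi lam).mul hPvali
  rw [mul_one] at h2
  rw [← hvi.unique h2]
  refine Finset.prod_congr rfl fun v hv => ?_
  have h1 : 0 < v.ord g⁻¹ := by
    have := (hSi v).mp hv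
    rw [v.ord_inv]; omega
  rw [← v.ord_inv, ← ramificationIndex_eq_ord hxinv v h1, zpow_natCast]

/-- **Weil reciprocity, norm form.** -/
theorem weil_norm_form (g u : F) (hg : Transcendental K g) (hu : u ≠ 0)
    (S0 Si T : Finset (Place K F))
    (hS0 : ∀ v, v ∈ S0 ↔ 0 < v.ord g)
    (hSi : ∀ v, v ∈ Si ↔ v.ord g < 0)
    (hT : ∀ v, v ∈ T ↔ (v.ord u ≠ 0 ∧ 0 ≤ v.ord g))
    (h0 : ∀ v ∈ S0, v.ord u = 0)
    (hi : ∀ v ∈ Si, v.ord u = v.ord g)
    (a b c : Place K F → K)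
    (ha : ∀ v ∈ S0, IsVal v u (a v))
    (hb : ∀ v ∈ Si, IsVal v (u / g) (b v))
    (hc : ∀ v ∈ T, IsVal v g (c v)) :
    ∏ v ∈ S0, a v ^ (v.ord g) =
      (∏ v ∈ Si, b v ^ (-(v.ord g))) * ∏ v ∈ T, (-(c v)) ^ (v.ord u) := by
  classical
  have hfin : FiniteDimensional K⟮g⟯ F := finiteDimensional_adjoin g hg
  have hg0 : g ≠ 0 := fun h => hg (h ▸ isAlgebraic_zero)
  -- sums
  have hsum0 : ∑ v ∈ S0, v.ord g = (Module.finrank K⟮g⟯ F : ℤ) :=
    Fermat.Agent.S24.FF.sum_ord_eq_finrank hg S0 hS0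
  have hsumi : ∑ v ∈ Si, v.ord g = -(Module.finrank K⟮g⟯ F : ℤ) :=
    Fermat.Agent.S24.FF.sum_ord_neg_eq_neg_finrank hg Si hSi
  have hmpos : 0 < Module.finrank K⟮g⟯ F := Module.finrank_pos
  -- facts about `T`
  have hTg : ∀ v ∈ T, v.ord g = 0 := by
    intro v hv
    obtain ⟨h1, h2⟩ := (hT v).mp hv
    rcases h2.lt_or_eq with h3 | h3
    · exact absurd (h0 v ((hS0 v).mpr h3)) h1
    · exact h3.symm
  have hcne : ∀ v ∈ T, c v ≠ 0 := by
    intro v hv h
    have h1 := hc v hv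
    rw [h, isVal_zero_iff] at h1
    rcases h1 with h1 | h1
    · exact hg0 h1
    · have := hTg v hv; omega
  have hdisj : Disjoint T Si := by
    rw [Finset.disjoint_left]
    intro v hv hv'
    have h1 := hTg v hv
    have h2 := (hSi v).mp hv'
    omega
  have hsumT : ∑ v ∈ T, v.ord u = (Module.finrank K⟮g⟯ F : ℤ) := by
    have h := sum_ord_eq_zero hu (T ∪ Si) (by
      intro v hv
      rw [Finset.mem_union, hT, hSi]
      by_cases h : 0 ≤ v.ord g
      · exact Or.inl ⟨hv, h⟩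
      · exact Or.inr (by omega))
    rw [Finset.sum_union hdisj, Finset.sum_congr rfl hi, hsumi] at h
    omega
  obtain ⟨lam, hHP⟩ := norm_eq_const_mul_prod g u hg hu S0 Si T hS0 hSi hT h0 hi c hc hcne hsumT
  have hne0 : S0.Nonempty := by
    rw [Finset.nonempty_iff_ne_empty]
    rintro rfl
    rw [Finset.sum_empty] at hsum0
    omega
  have hnei : Si.Nonempty := by
    rw [Finset.nonempty_iff_ne_empty]
    rintro rfl
    rw [Finset.sum_empty] at hsumi
    omega
  rw [eval_at_zero g u S0 hS0 hne0 a ha T c hcne _ lam hHP,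
    eval_at_pole g u hg0 Si hSi hnei b hb T c _ hsumT lam hHP]

end main

end Fermat.Agent.S17.H890
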