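import Mathlib
import Fermat.Agent.S17.H890.WeilRec

/-!
# S17 / H / CHOW (helper890): linear systems, values of ratios of sections, 3-term reciprocity

`S : LinSys K F n` : functions `x₀, …, x_{n-1} ∈ L(D)`, linearly independent, `deg D > 0`, with
representatives `pt P ∈ Kⁿ ∖ 0` of the points `(x₀ : … : x_{n-1})(P)`, characterised by
`⟨a, pt P⟩ = 0 ↔ P ∈ Z_a`, where `Z_a = div(∑ aᵢ xᵢ) + D ≥ 0`.

* `LinSys.isVal_ratio` : `(∑ aᵢ xᵢ / ∑ bᵢ xᵢ)(P) = ⟨a, pt P⟩ / ⟨b, pt P⟩` if `P ∉ Z_b`.
* `LinSys.br a t = ∏_{A ∈ Z_a} ⟨t, pt A⟩^{Z_a(A)}`.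
* `LinSys.weil3` : for pairwise coprime sections `a, t, w`:
  `br t a * br w t * br a w = (-1)^m * (br t w * br w a * br a t)`.
-/

set_option autoImplicit false
set_option linter.unusedSectionVars false

noncomputable section

namespace Fermat.Agent.S17.H890

open AlgebraicCurve Fermat.Agent.Lib.RR

variable {K F : Type*} [Field K] [Field F] [Algebra K F]

/-- `⟨a, y⟩ = ∑ aᵢ yᵢ` -/
def dotp {n : ℕ} (a y : Fin n → K) : K := ∑ i, a i * y i

/-- `∑ aᵢ xᵢ` -/
def linc {n : ℕ} (x : Fin n → F) (a : Fin n → K) : F := ∑ i, a i • x i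

theorem dotp_add_left {n : ℕ} (a b y : Fin n → K) : dotp (a + b) y = dotp a y + dotp b y := by
  simp [dotp, add_mul, Finset.sum_add_distrib]

theorem dotp_smul_left {n : ℕ} (c : K) (a y : Fin n → K) : dotp (c • a) y = c * dotp a y := by
  simp [dotp, Finset.mul_sum, mul_assoc]

theorem dotp_sub_left {n : ℕ} (a b y : Fin n → K) : dotp (a - b) y = dotp a y - dotp b y := by
  simp [dotp, sub_mul, Finset.sum_sub_distrib]

theorem dotp_zero_left {n : ℕ} (y : Fin n → K) : dotp (0 : Fin n → K) y = 0 := by
  simp [dotp]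

theorem dotp_zero_right {n : ℕ} (a : Fin n → K) : dotp a (0 : Fin n → K) = 0 := by
  simp [dotp]

theorem exists_dotp_ne_zero {n : ℕ} {y : Fin n → K} (hy : y ≠ 0) : ∃ a : Fin n → K, dotp a y ≠ 0 := by
  classical
  obtain ⟨i, hi⟩ := Function.ne_iff.mp hy
  refine ⟨Pi.single i 1, ?_⟩
  simpa [dotp, Pi.single_apply] using hi

theorem linc_add {n : ℕ} (x : Fin n → F) (a b : Fin n → K) :
    linc x (a + b) = linc x a + linc x b := by
  simp [linc, add_smul, Finset.sum_add_distrib]

theorem linc_smul {n : ℕ} (x : Fin n → F) (c : K) (a : Fin n → K) :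
    linc x (c • a) = algebraMap K F c * linc x a := by
  simp [linc, Finset.mul_sum, Algebra.smul_def, mul_assoc]

theorem linc_sub {n : ℕ} (x : Fin n → F) (a b : Fin n → K) :
    linc x (a - b) = linc x a - linc x b := by
  simp [linc, sub_smul, Finset.sum_sub_distrib]

theorem linc_zero {n : ℕ} (x : Fin n → F) : linc x (0 : Fin n → K) = 0 := by
  simp [linc]

/-- A linear system on the curve, with representatives of its points. -/
structure LinSys (K F : Type*) [Field K] [Field F] [Algebra K F] [FF1 K F] (n : ℕ) where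
  /-- the divisor -/
  D : Divisor K F
  /-- the sections -/
  x : Fin n → F
  /-- the divisors of zeros of the sections -/
  Z : (Fin n → K) → Divisor K F
  /-- representatives of the points -/
  pt : Place K F → Fin n → K
  hD : 0 < Divisor.degree D
  hli : LinearIndependent K x
  hx : ∀ i, x i ∈ riemannRochSpace D
  hZ : ∀ (a : Fin n → K) (h : linc x a ≠ 0), Z a = divOf (linc x a) h + D
  hpt0 : ∀ P, pt P ≠ 0
  hpt : ∀ (P : Place K F) (a : Fin n → K), a ≠ 0 → (dotp a (pt P) = 0 ↔ 0 < Z a P)

namespace LinSys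

variable [FF1 K F] {n : ℕ} (S : LinSys K F n)

theorem linc_ne_zero {a : Fin n → K} (ha : a ≠ 0) : linc S.x a ≠ 0 := by
  intro h
  apply ha
  have := (Fintype.linearIndependent_iff.mp S.hli) a h
  exact funext this

theorem Z_apply {a : Fin n → K} (ha : a ≠ 0) (P : Place K F) :
    S.Z a P = P.ord (linc S.x a) + S.D P := by
  rw [S.hZ a (S.linc_ne_zero ha), Finsupp.add_apply, divOf_apply]

theorem linc_mem (a : Fin n → K) : linc S.x a ∈ riemannRochSpace S.D := by
  unfold linc
  exact Submodule.sum_mem _ fun i _ => Submodule.smul_mem _ _ (S.hx i)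

theorem Z_nonneg {a : Fin n → K} (ha : a ≠ 0) (P : Place K F) : 0 ≤ S.Z a P := by
  rw [S.Z_apply ha]
  have := (mem_L_iff.mp (S.linc_mem a) P).resolve_left (S.linc_ne_zero ha)
  omega

theorem degree_Z {a : Fin n → K} (ha : a ≠ 0) : Divisor.degree (S.Z a) = Divisor.degree S.D := by
  rw [S.hZ a (S.linc_ne_zero ha), map_add, degree_divOf, zero_add]

theorem sum_Z {a : Fin n → K} (ha : a ≠ 0) :
    ∑ P ∈ (S.Z a).support, S.Z a P = Divisor.degree S.D := by
  rw [← S.degree_Z ha, degree_eq_sum]
  refine Finset.sum_congr rfl fun P _ => ?_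
  rw [deg_eq_one P]
  simp

theorem support_nonempty {a : Fin n → K} (ha : a ≠ 0) : (S.Z a).support.Nonempty := by
  rw [Finset.nonempty_iff_ne_empty]
  intro h
  have h1 := S.sum_Z ha
  rw [h, Finset.sum_empty] at h1
  have := S.hD
  omega

theorem mem_support_iff {a : Fin n → K} (ha : a ≠ 0) (P : Place K F) :
    P ∈ (S.Z a).support ↔ 0 < S.Z a P := by
  rw [Finsupp.mem_support_iff]
  have := S.Z_nonneg ha P
  omega

theorem dotp_ne_zero_iff {a : Fin n → K} (ha : a ≠ 0) (P : Place K F) :
    dotp a (S.pt P) ≠ 0 ↔ S.Z a P = 0 := by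
  rw [Ne, S.hpt P a ha]
  have := S.Z_nonneg ha P
  omega

/-- **Values of ratios of sections.** -/
theorem isVal_ratio (a : Fin n → K) {b : Fin n → K} (hb : b ≠ 0) (P : Place K F)
    (hP : S.Z b P = 0) :
    IsVal P (linc S.x a / linc S.x b) (dotp a (S.pt P) / dotp b (S.pt P)) := by
  have hb0 := S.linc_ne_zero hb
  have hbP : dotp b (S.pt P) ≠ 0 := (S.dotp_ne_zero_iff hb P).mpr hP
  have hordb : P.ord (linc S.x b) = -S.D P := by
    have := S.Z_apply hb P
    omega
  -- the ratio is regular at `P`
  have hreg : linc S.x a / linc S.x b = 0 ∨ 0 ≤ P.ord (linc S.x a / linc S.x b) := by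
    rcases eq_or_ne a 0 with rfl | ha
    · left
      rw [linc_zero, zero_div]
    · right
      rw [div_eq_mul_inv, P.ord_mul (S.linc_ne_zero ha) (inv_ne_zero hb0), P.ord_inv, hordb]
      have := S.Z_nonneg ha P
      rw [S.Z_apply ha] at this
      omega
  obtain ⟨c, hc⟩ := exists_isVal P (deg_eq_one P) hreg
  have key : dotp a (S.pt P) = c * dotp b (S.pt P) := by
    rcases eq_or_ne (a - c • b) 0 with h0 | h0
    · have : a = c • b := sub_eq_zero.mp h0
      rw [this, dotp_smul_left]
    · -- `a - c b` vanishes at `P`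
      have h1 : linc S.x a / linc S.x b - algebraMap K F c =
          linc S.x (a - c • b) / linc S.x b := by
        rw [linc_sub, linc_smul]
        field_simp
      have h2 : linc S.x (a - c • b) / linc S.x b ≠ 0 :=
        div_ne_zero (S.linc_ne_zero h0) hb0
      have h3 : 0 < P.ord (linc S.x (a - c • b) / linc S.x b) := by
        unfold IsVal at hc
        rw [h1] at hc
        exact hc.resolve_left h2
      rw [div_eq_mul_inv, P.ord_mul (S.linc_ne_zero h0) (inv_ne_zero hb0), P.ord_inv,
        hordb] at h3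
      have h4 : 0 < S.Z (a - c • b) P := by
        rw [S.Z_apply h0]
        omega
      have h5 := (S.hpt P (a - c • b) h0).mpr h4
      rw [dotp_sub_left, dotp_smul_left] at h5
      exact sub_eq_zero.mp h5
  rw [key, mul_div_assoc, div_self hbP, mul_one]
  exact hc

/-- `[a; t] = ∏_{A ∈ Z_a} ⟨t, pt A⟩^{Z_a(A)}` -/
def br (a t : Fin n → K) : K := (S.Z a).prod fun A k => dotp t (S.pt A) ^ k.toNat

/-- sections without common zero -/
def Coprime (a t : Fin n → K) : Prop := ∀ P : Place K F, S.Z a P = 0 ∨ S.Z t P = 0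

theorem Coprime.symm {a t : Fin n → K} (h : S.Coprime a t) : S.Coprime t a :=
  fun P => (h P).symm

theorem br_ne_zero_iff {a t : Fin n → K} (ha : a ≠ 0) (ht : t ≠ 0) :
    S.br a t ≠ 0 ↔ S.Coprime a t := by
  unfold br Coprime
  rw [Finsupp.prod, Finset.prod_ne_zero_iff]
  constructor
  · intro h P
    by_cases hP : P ∈ (S.Z a).support
    · right
      have h1 := h P hP
      have h2 : dotp t (S.pt P) ≠ 0 := by
        intro h0
        apply h1
        rw [h0]
        apply zero_pow
        have := (S.mem_support_iff ha P).mp hP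
        omega
      exact (S.dotp_ne_zero_iff ht P).mp h2
    · left
      rwa [Finsupp.mem_support_iff, not_not] at hP
  · intro h P hP
    apply pow_ne_zero
    rw [S.dotp_ne_zero_iff ht P]
    rw [Finsupp.mem_support_iff] at hP
    exact (h P).resolve_left hP

theorem br_zero_right {a : Fin n → K} (ha : a ≠ 0) : S.br a 0 = 0 := by
  unfold br
  rw [Finsupp.prod, Finset.prod_eq_zero_iff]
  obtain ⟨P, hP⟩ := S.support_nonempty ha
  refine ⟨P, hP, ?_⟩
  rw [dotp_zero_left]
  apply zero_pow
  have := (S.mem_support_iff ha P).mp hP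
  omega

theorem ne_zero_of_br_ne_zero {a t : Fin n → K} (ha : a ≠ 0) (h : S.br a t ≠ 0) : t ≠ 0 := by
  rintro rfl
  exact h (S.br_zero_right ha)

theorem br_eq_prod_zpow {a : Fin n → K} (ha : a ≠ 0) (t : Fin n → K) :
    S.br a t = ∏ A ∈ (S.Z a).support, dotp t (S.pt A) ^ (S.Z a A) := by
  unfold br
  rw [Finsupp.prod]
  refine Finset.prod_congr rfl fun A _ => ?_
  rw [← zpow_natCast, Int.toNat_of_nonneg (S.Z_nonneg ha A)]

theorem sum_toNat_Z {a : Fin n → K} (ha : a ≠ 0) :
    ∑ P ∈ (S.Z a).support, (S.Z a P).toNat = (Divisor.degree S.D).toNat := by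
  have h := S.sum_Z ha
  rw [← h]
  have : (((∑ P ∈ (S.Z a).support, (S.Z a P).toNat : ℕ) : ℤ)) =
      ∑ P ∈ (S.Z a).support, S.Z a P := by
    push_cast
    refine Finset.sum_congr rfl fun P _ => ?_
    rw [Int.toNat_of_nonneg (S.Z_nonneg ha P)]
  omega

/-- **Projective Weil reciprocity** for three sections without common zeros. -/
theorem weil3 [IsAlgClosed K] [CharZero K] {a t w : Fin n → K} (ha : a ≠ 0) (ht : t ≠ 0)
    (hw : w ≠ 0) (hat : S.Coprime a t) (haw : S.Coprime a w) (htw : S.Coprime t w) :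
    S.br t a * S.br w t * S.br a w =
      (-1) ^ (Divisor.degree S.D).toNat * (S.br t w * S.br w a * S.br a t) := by
  classical
  have hA := S.linc_ne_zero ha
  have hT := S.linc_ne_zero ht
  have hW := S.linc_ne_zero hw
  have hordg : ∀ v : Place K F, v.ord (linc S.x t / linc S.x w) = S.Z t v - S.Z w v := by
    intro v
    rw [div_eq_mul_inv, v.ord_mul hT (inv_ne_zero hW), v.ord_inv, S.Z_apply ht, S.Z_apply hw]
    ring
  have hordu : ∀ v : Place K F, v.ord (linc S.x a / linc S.x w) = S.Z a v - S.Z w v := by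
    intro v
    rw [div_eq_mul_inv, v.ord_mul hA (inv_ne_zero hW), v.ord_inv, S.Z_apply ha, S.Z_apply hw]
    ring
  have hg : Transcendental K (linc S.x t / linc S.x w) := by
    apply Fermat.Agent.S24.FF.transcendental_of_not_mem_range
    rintro ⟨c, hc⟩
    obtain ⟨P, hP⟩ := S.support_nonempty ht
    have h1 := (S.mem_support_iff ht P).mp hP
    have h2 := hordg P
    rw [← hc, ord_algebraMap] at h2
    have h3 := (htw P).resolve_left (by omega)
    omega
  have hu : linc S.x a / linc S.x w ≠ 0 := div_ne_zero hA hW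
  have nn := fun (b : Fin n → K) (hb : b ≠ 0) (v : Place K F) => S.Z_nonneg hb v
  have key := weil_norm_form (linc S.x t / linc S.x w) (linc S.x a / linc S.x w) hg hu
    (S.Z t).support (S.Z w).support (S.Z a).support
    (fun v => by
      rw [S.mem_support_iff ht, hordg]
      have := nn t ht v; have := nn w hw v; have := htw v
      omega)
    (fun v => by
      rw [S.mem_support_iff hw, hordg]
      have := nn t ht v; have := nn w hw v; have := htw v
      omega)
    (fun v => by
      rw [S.mem_support_iff ha, hordg, hordu]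
      have := nn t ht v; have := nn w hw v; have := nn a ha v
      have := htw v; have := haw v
      omega)
    (fun v hv => by
      rw [S.mem_support_iff ht] at hv
      rw [hordu]
      have := htw v; have := hat v
      omega)
    (fun v hv => by
      rw [S.mem_support_iff hw] at hv
      rw [hordu, hordg]
      have := htw v; have := haw v
      omega)
    (fun v => dotp a (S.pt v) / dotp w (S.pt v))
    (fun v => dotp a (S.pt v) / dotp t (S.pt v))
    (fun v => dotp t (S.pt v) / dotp w (S.pt v))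
    (fun v hv => by
      rw [S.mem_support_iff ht] at hv
      exact S.isVal_ratio a hw v ((htw v).resolve_left (by omega)))
    (fun v hv => by
      rw [S.mem_support_iff hw] at hv
      have e : linc S.x a / linc S.x w / (linc S.x t / linc S.x w) =
          linc S.x a / linc S.x t := by
        field_simp
      rw [e]
      exact S.isVal_ratio a ht v ((htw v).resolve_right (by omega)))
    (fun v hv => by
      rw [S.mem_support_iff ha] at hv
      exact S.isVal_ratio t hw v ((haw v).resolve_left (by omega)))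
  -- rewrite the three products
  have e1 : ∏ v ∈ (S.Z t).support,
      (dotp a (S.pt v) / dotp w (S.pt v)) ^ (v.ord (linc S.x t / linc S.x w)) =
      S.br t a / S.br t w := by
    rw [S.br_eq_prod_zpow ht, S.br_eq_prod_zpow ht, ← Finset.prod_div_distrib]
    refine Finset.prod_congr rfl fun v hv => ?_
    rw [S.mem_support_iff ht] at hv
    have h3 := (htw v).resolve_left (by omega)
    rw [hordg, h3, sub_zero, div_zpow]
  have e2 : ∏ v ∈ (S.Z w).support,
      (dotp a (S.pt v) / dotp t (S.pt v)) ^ (-(v.ord (linc S.x t / linc S.x w))) =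
      S.br w a / S.br w t := by
    rw [S.br_eq_prod_zpow hw, S.br_eq_prod_zpow hw, ← Finset.prod_div_distrib]
    refine Finset.prod_congr rfl fun v hv => ?_
    rw [S.mem_support_iff hw] at hv
    have h3 := (htw v).resolve_right (by omega)
    rw [hordg, h3, zero_sub, neg_neg, div_zpow]
  have e3 : ∏ v ∈ (S.Z a).support,
      (-(dotp t (S.pt v) / dotp w (S.pt v))) ^ (v.ord (linc S.x a / linc S.x w)) =
      (-1) ^ (Divisor.degree S.D).toNat * (S.br a t / S.br a w) := by
    rw [S.br_eq_prod_zpow ha, S.br_eq_prod_zpow ha, ← Finset.prod_div_distrib,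
      ← S.sum_toNat_Z ha, ← Finset.prod_pow_eq_pow_sum, ← Finset.prod_mul_distrib]
    refine Finset.prod_congr rfl fun v hv => ?_
    rw [S.mem_support_iff ha] at hv
    have h3 := (haw v).resolve_left (by omega)
    rw [hordu, h3, sub_zero, ← div_zpow, ← zpow_natCast, Int.toNat_of_nonneg (nn a ha v),
      ← mul_zpow, neg_one_mul]
  rw [e1, e2, e3] at key
  have n1 : S.br t w ≠ 0 := (S.br_ne_zero_iff ht hw).mpr htw
  have n2 : S.br w t ≠ 0 := (S.br_ne_zero_iff hw ht).mpr htw.symm
  have n3 : S.br a w ≠ 0 := (S.br_ne_zero_iff ha hw).mpr haw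
  field_simp at key
  linear_combination key

end LinSys

end Fermat.Agent.S17.H890
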