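import Mathlib
import Fermat.Agent.S17.H890.LinSys
import Fermat.Agent.S17.H890.Interp
import Fermat.Agent.Lib.RR.H439.Pencil
import Fermat.Agent.Lib.RR.Adeles

/-!
# S17 / H / CHOW (helper890): the Chow form of a linear system on a curve

`S : LinSys K F n`, `m = deg D`.  There is ONE polynomial `R(a, T)` in `2n` variables with

* `(C1)` `R(a, T) = c(a) ∏_{A ∈ Z_a} ⟨T, pt A⟩^{Z_a(A)}`, `c(a) ≠ 0`, for EVERY `a ≠ 0`;
* `(C2)` `R(a, T) = (-1)^m R(T, a)`.

Construction: `R_w(σ, τ) = [w;σ]/[σ;w] · [σ;τ]` on `{σ : [w;σ] ≠ 0}` is separately polynomial by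
the three term Weil reciprocity `LinSys.weil3`, hence polynomial (`exists_bipoly`); two reference
sections `w, w'` without common zero give proportional polynomials.
-/

set_option autoImplicit false
set_option linter.unusedSectionVars false

noncomputable section

namespace Fermat.Agent.S17.H890

open AlgebraicCurve Fermat.Agent.Lib.RR MvPolynomial

variable {K F : Type*} [Field K] [Field F] [Algebra K F]

theorem exists_eval_ne_zero {ι : Type*} [Infinite K] (H : MvPolynomial ι K) (hH : H ≠ 0) :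
    ∃ y : ι → K, eval y H ≠ 0 := by
  by_contra hcon
  push Not at hcon
  apply hH
  apply MvPolynomial.funext
  intro y
  rw [hcon y, map_zero]

namespace LinSys

variable [FF1 K F] {n : ℕ} (S : LinSys K F n)

/-- the linear form `⟨·, y⟩` -/
def linForm (y : Fin n → K) : MvPolynomial (Fin n) K := ∑ i, C (y i) * X i

theorem eval_linForm (y t : Fin n → K) : eval t (linForm y) = dotp t y := by
  simp [linForm, dotp, mul_comm]

theorem linForm_ne_zero {y : Fin n → K} (hy : y ≠ 0) : linForm y ≠ 0 := by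
  obtain ⟨a, ha⟩ := exists_dotp_ne_zero hy
  intro h
  apply ha
  rw [← eval_linForm, h, map_zero]

theorem totalDegree_linForm_le (y : Fin n → K) : (linForm y).totalDegree ≤ 1 := by
  unfold linForm
  refine (totalDegree_finsetSum _ _).trans ?_
  apply Finset.sup_le
  intro i _
  refine (totalDegree_mul _ _).trans ?_
  rw [totalDegree_C, zero_add]
  exact (totalDegree_X (R := K) i).le

/-- the polynomial `T ↦ [a; T]` -/
def Phi (a : Fin n → K) : MvPolynomial (Fin n) K :=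
  (S.Z a).prod fun A k => linForm (S.pt A) ^ k.toNat

theorem eval_Phi (a t : Fin n → K) : eval t (S.Phi a) = S.br a t := by
  unfold Phi br
  rw [Finsupp.prod, Finsupp.prod, map_prod]
  refine Finset.prod_congr rfl fun A _ => ?_
  rw [map_pow, eval_linForm]

theorem Phi_ne_zero (a : Fin n → K) : S.Phi a ≠ 0 := by
  unfold Phi
  rw [Finsupp.prod, Finset.prod_ne_zero_iff]
  intro A _
  exact pow_ne_zero _ (linForm_ne_zero (S.hpt0 A))

theorem totalDegree_Phi_le {a : Fin n → K} (ha : a ≠ 0) :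
    (S.Phi a).totalDegree ≤ (Divisor.degree S.D).toNat := by
  unfold Phi
  rw [Finsupp.prod, ← S.sum_toNat_Z ha]
  refine (totalDegree_finsetProd _ _).trans ?_
  refine Finset.sum_le_sum fun A _ => ?_
  refine (totalDegree_pow _ _).trans ?_
  calc (S.Z a A).toNat * (linForm (S.pt A)).totalDegree
      ≤ (S.Z a A).toNat * 1 := Nat.mul_le_mul_left _ (totalDegree_linForm_le _)
    _ = (S.Z a A).toNat := mul_one _

section chow

variable [IsAlgClosed K] [CharZero K]

/-- `R_w(σ, τ) = [w;σ]/[σ;w] · [σ;τ]` -/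
def fw (w σ τ : Fin n → K) : K := S.br w σ / S.br σ w * S.br σ τ

theorem fw_symm {w σ τ : Fin n → K} (hw : w ≠ 0) (hσ : S.br w σ ≠ 0) (hτ : S.br w τ ≠ 0) :
    S.fw w τ σ = (-1) ^ (Divisor.degree S.D).toNat * S.fw w σ τ := by
  have hσ0 : σ ≠ 0 := S.ne_zero_of_br_ne_zero hw hσ
  have hτ0 : τ ≠ 0 := S.ne_zero_of_br_ne_zero hw hτ
  have cσ : S.Coprime w σ := (S.br_ne_zero_iff hw hσ0).mp hσ
  have cτ : S.Coprime w τ := (S.br_ne_zero_iff hw hτ0).mp hτ
  have n1 : S.br σ w ≠ 0 := (S.br_ne_zero_iff hσ0 hw).mpr cσ.symm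
  have n2 : S.br τ w ≠ 0 := (S.br_ne_zero_iff hτ0 hw).mpr cτ.symm
  unfold fw
  by_cases hcop : S.Coprime σ τ
  · have key := S.weil3 hσ0 hτ0 hw hcop cσ.symm cτ.symm
    field_simp
    linear_combination key
  · have h1 : S.br σ τ = 0 := by
      by_contra h
      exact hcop ((S.br_ne_zero_iff hσ0 hτ0).mp h)
    have h2 : S.br τ σ = 0 := by
      by_contra h
      exact hcop ((S.br_ne_zero_iff hτ0 hσ0).mp h).symm
    rw [h1, h2, mul_zero, mul_zero, mul_zero]

/-- the polynomial `R_w` -/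
theorem exists_Rw {w : Fin n → K} (hw : w ≠ 0) :
    ∃ R : MvPolynomial (Fin n ⊕ Fin n) K, ∀ σ : Fin n → K, S.br w σ ≠ 0 →
      ∀ τ : Fin n → K, eval (Sum.elim σ τ) R = S.fw w σ τ := by
  have hinf : Infinite K := inferInstance
  obtain ⟨R, hR⟩ := exists_bipoly (Divisor.degree S.D).toNat {σ : Fin n → K | S.br w σ ≠ 0}
    (fun p hp => eq_zero_of_eval_eq_zero_on (S.Phi w) (S.Phi_ne_zero w) p (fun x hx => by
      rw [S.eval_Phi] at hx
      exact hp x hx))
    (fun σ τ => S.fw w σ τ)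
    (fun σ hσ => by
      have hσ0 : σ ≠ 0 := S.ne_zero_of_br_ne_zero hw hσ
      refine ⟨C (S.br w σ / S.br σ w) * S.Phi σ, ?_, fun τ => ?_⟩
      · refine (totalDegree_mul _ _).trans ?_
        rw [totalDegree_C, zero_add]
        exact S.totalDegree_Phi_le hσ0
      · rw [map_mul, eval_C, S.eval_Phi]
        rfl)
    (fun τ hτ => by
      refine ⟨C ((-1) ^ (Divisor.degree S.D).toNat * (S.br w τ / S.br τ w)) * S.Phi τ,
        fun σ hσ => ?_⟩
      rw [map_mul, eval_C, S.eval_Phi]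
      show S.fw w σ τ = _
      rw [S.fw_symm hw hτ hσ, mul_assoc]
      rfl)
  exact ⟨R, fun σ hσ τ => (hR σ hσ τ).symm⟩

theorem eval_rename_inl (p : MvPolynomial (Fin n) K) (x : Fin n ⊕ Fin n → K) :
    eval x (rename Sum.inl p) = eval (x ∘ Sum.inl) p := by
  rw [eval_rename]

theorem eval_rename_inr (p : MvPolynomial (Fin n) K) (x : Fin n ⊕ Fin n → K) :
    eval x (rename Sum.inr p) = eval (x ∘ Sum.inr) p := by
  rw [eval_rename]

theorem rename_inl_ne_zero {p : MvPolynomial (Fin n) K} (hp : p ≠ 0) :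
    rename (Sum.inl : Fin n → Fin n ⊕ Fin n) p ≠ 0 := by
  intro h
  apply hp
  apply rename_injective _ Sum.inl_injective
  rw [h, map_zero]

theorem rename_inr_ne_zero {p : MvPolynomial (Fin n) K} (hp : p ≠ 0) :
    rename (Sum.inr : Fin n → Fin n ⊕ Fin n) p ≠ 0 := by
  intro h
  apply hp
  apply rename_injective _ Sum.inr_injective
  rw [h, map_zero]

theorem elim_comp_swap (a T : Fin n → K) :
    (Sum.elim a T : Fin n ⊕ Fin n → K) ∘ Sum.swap = Sum.elim T a := by
  funext i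
  cases i <;> rfl

theorem exists_eq_elim (x : Fin n ⊕ Fin n → K) : ∃ σ τ : Fin n → K, x = Sum.elim σ τ :=
  ⟨x ∘ Sum.inl, x ∘ Sum.inr, (Sum.elim_comp_inl_inr x).symm⟩

theorem neg_one_pow_mul_self (k : ℕ) : ((-1 : K) ^ k) * ((-1 : K) ^ k) = 1 := by
  rw [← mul_pow]
  simp

/-- `(C2)` for `R_w` -/
theorem Rw_symm {w : Fin n → K} (hw : w ≠ 0) (R : MvPolynomial (Fin n ⊕ Fin n) K)
    (hR : ∀ σ : Fin n → K, S.br w σ ≠ 0 → ∀ τ : Fin n → K,
      eval (Sum.elim σ τ) R = S.fw w σ τ) (a T : Fin n → K) :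
    eval (Sum.elim a T) R =
      (-1) ^ (Divisor.degree S.D).toNat * eval (Sum.elim T a) R := by
  have hinf : Infinite K := inferInstance
  have hG : R - C ((-1) ^ (Divisor.degree S.D).toNat) * rename Sum.swap R = 0 := by
    apply eq_zero_of_eval_eq_zero_on
      (rename Sum.inl (S.Phi w) * rename Sum.inr (S.Phi w))
      (mul_ne_zero (rename_inl_ne_zero (S.Phi_ne_zero w)) (rename_inr_ne_zero (S.Phi_ne_zero w)))
    intro x hx
    obtain ⟨σ, τ, rfl⟩ := exists_eq_elim x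
    rw [map_mul, eval_rename_inl, eval_rename_inr, S.eval_Phi, S.eval_Phi,
      Sum.elim_comp_inl, Sum.elim_comp_inr] at hx
    have h1 : S.br w σ ≠ 0 := left_ne_zero_of_mul hx
    have h2 : S.br w τ ≠ 0 := right_ne_zero_of_mul hx
    rw [map_sub, map_mul, eval_C, eval_rename, elim_comp_swap, hR _ h2, hR _ h1,
      S.fw_symm hw h1 h2, ← mul_assoc, neg_one_pow_mul_self, one_mul, sub_self]
  have := congrArg (eval (Sum.elim a T)) hG
  rw [map_sub, map_mul, eval_C, eval_rename, map_zero, sub_eq_zero, elim_comp_swap] at this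
  exact this

/-- two reference sections without common zero give proportional polynomials -/
theorem Rw_prop {w w' : Fin n → K} (hw : w ≠ 0) (hw' : w' ≠ 0) (hcop : S.Coprime w w')
    (R R' : MvPolynomial (Fin n ⊕ Fin n) K)
    (hR : ∀ σ : Fin n → K, S.br w σ ≠ 0 → ∀ τ : Fin n → K,
      eval (Sum.elim σ τ) R = S.fw w σ τ)
    (hR' : ∀ σ : Fin n → K, S.br w' σ ≠ 0 → ∀ τ : Fin n → K,
      eval (Sum.elim σ τ) R' = S.fw w' σ τ) :
    R' = C ((-1) ^ (Divisor.degree S.D).toNat * (S.br w' w / S.br w w')) * R := by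
  have hinf : Infinite K := inferInstance
  rw [← sub_eq_zero]
  apply eq_zero_of_eval_eq_zero_on
    (rename Sum.inl (S.Phi w * S.Phi w'))
    (rename_inl_ne_zero (mul_ne_zero (S.Phi_ne_zero w) (S.Phi_ne_zero w')))
  intro x hx
  obtain ⟨σ, τ, rfl⟩ := exists_eq_elim x
  rw [eval_rename_inl, map_mul, S.eval_Phi, S.eval_Phi, Sum.elim_comp_inl] at hx
  have h1 : S.br w σ ≠ 0 := left_ne_zero_of_mul hx
  have h2 : S.br w' σ ≠ 0 := right_ne_zero_of_mul hx
  have hσ0 : σ ≠ 0 := S.ne_zero_of_br_ne_zero hw h1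
  have c1 : S.Coprime w σ := (S.br_ne_zero_iff hw hσ0).mp h1
  have c2 : S.Coprime w' σ := (S.br_ne_zero_iff hw' hσ0).mp h2
  have n1 : S.br σ w ≠ 0 := (S.br_ne_zero_iff hσ0 hw).mpr c1.symm
  have n2 : S.br σ w' ≠ 0 := (S.br_ne_zero_iff hσ0 hw').mpr c2.symm
  have n3 : S.br w w' ≠ 0 := (S.br_ne_zero_iff hw hw').mpr hcop
  have key := S.weil3 hσ0 hw' hw c2.symm c1.symm hcop.symm
  rw [map_sub, map_mul, eval_C, hR _ h1, hR' _ h2]
  unfold fw
  field_simp
  linear_combination (S.br σ τ) * key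

/-- **The Chow form.** -/
theorem exists_chow :
    ∃ (R : MvPolynomial (Fin n ⊕ Fin n) K) (ε : K), ε ^ 2 = 1 ∧
      (∀ a : Fin n → K, a ≠ 0 → ∃ c : K, c ≠ 0 ∧ ∀ T : Fin n → K,
        eval (Sum.elim a T) R = c * S.br a T) ∧
      ∀ a T : Fin n → K, eval (Sum.elim a T) R = ε * eval (Sum.elim T a) R := by
  have hinf : Infinite K := inferInstance
  have hε : ((-1 : K) ^ (Divisor.degree S.D).toNat) ^ 2 = 1 := by
    rw [← pow_mul, mul_comm, pow_mul]
    simp
  by_cases hex : ∃ w₀ : Fin n → K, w₀ ≠ 0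
  · obtain ⟨w₀, hw₀⟩ := hex
    obtain ⟨R, hR⟩ := S.exists_Rw hw₀
    refine ⟨R, (-1) ^ (Divisor.degree S.D).toNat, hε, ?_, S.Rw_symm hw₀ R hR⟩
    intro a ha
    obtain ⟨w', hw'⟩ := exists_eval_ne_zero (S.Phi a * S.Phi w₀)
      (mul_ne_zero (S.Phi_ne_zero a) (S.Phi_ne_zero w₀))
    rw [map_mul, S.eval_Phi, S.eval_Phi] at hw'
    have h1 : S.br a w' ≠ 0 := left_ne_zero_of_mul hw'
    have h2 : S.br w₀ w' ≠ 0 := right_ne_zero_of_mul hw'
    have hw'0 : w' ≠ 0 := S.ne_zero_of_br_ne_zero ha h1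
    have c1 : S.Coprime a w' := (S.br_ne_zero_iff ha hw'0).mp h1
    have c2 : S.Coprime w₀ w' := (S.br_ne_zero_iff hw₀ hw'0).mp h2
    have n1 : S.br w' a ≠ 0 := (S.br_ne_zero_iff hw'0 ha).mpr c1.symm
    have n2 : S.br w' w₀ ≠ 0 := (S.br_ne_zero_iff hw'0 hw₀).mpr c2.symm
    obtain ⟨R', hR'⟩ := S.exists_Rw hw'0
    have hprop := S.Rw_prop hw₀ hw'0 c2 R R' hR hR'
    have hκ : (-1 : K) ^ (Divisor.degree S.D).toNat * (S.br w' w₀ / S.br w₀ w') ≠ 0 :=
      mul_ne_zero (pow_ne_zero _ (by simp)) (div_ne_zero n2 h2)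
    refine ⟨((-1 : K) ^ (Divisor.degree S.D).toNat * (S.br w' w₀ / S.br w₀ w'))⁻¹ *
      (S.br w' a / S.br a w'), mul_ne_zero (inv_ne_zero hκ) (div_ne_zero n1 h1), fun T => ?_⟩
    have h3 := hR' a n1 T
    rw [hprop, map_mul, eval_C] at h3
    unfold fw at h3
    rw [mul_assoc, ← h3, ← mul_assoc, inv_mul_cancel₀ hκ, one_mul]
  · push Not at hex
    refine ⟨0, 1, one_pow 2, fun a ha => absurd (hex a) ha, fun a T => ?_⟩
    simp

end chow

end LinSys

/-- **CHOW = (C1) + (C2)** for the embedding by a complete linear system `|m∞|`, `m ≥ 2g + 1`,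
in the shape of `HWall.ChowStatement` (fields of `EmbData` as explicit hypotheses; `Z a` is the
hyperplane section `div(∑ aᵢ xᵢ) + m∞`). -/
theorem chow_of_fields [IsAlgClosed K] [CharZero K] [FF1 K F]
    (vinf : Place K F) (m r : ℕ) (x : Fin (r + 1) → F) (pt : Place K F → Fin (r + 1) → K)
    (hm : 2 * genusR K F + 1 ≤ m)
    (x_li : LinearIndependent K x)
    (x_span : Submodule.span K (Set.range x) = riemannRochSpace (m • prim vinf))
    (Z : (Fin (r + 1) → K) → Divisor K F)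
    (hZ : ∀ (a : Fin (r + 1) → K) (h : ¬ (∑ i, a i • x i = 0)),
      Z a = divOf (∑ i, a i • x i) h + m • prim vinf)
    (pt_spec : ∀ (P : Place K F) (a : Fin (r + 1) → K), a ≠ 0 →
      ((∑ i, a i * pt P i) = 0 ↔ 0 < Z a P)) :
    ∃ (R : MvPolynomial (Fin (r + 1) ⊕ Fin (r + 1)) K) (ε : K), ε ^ 2 = 1 ∧
      (∀ a : Fin (r + 1) → K, a ≠ 0 → ∃ c : K, c ≠ 0 ∧ ∀ T : Fin (r + 1) → K,
        MvPolynomial.eval (Sum.elim a T) R =
          c * (Z a).prod (fun A n => (∑ i, T i * pt A i) ^ n.toNat)) ∧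
      ∀ a T : Fin (r + 1) → K,
        MvPolynomial.eval (Sum.elim a T) R = ε * MvPolynomial.eval (Sum.elim T a) R := by
  have hdeg : Divisor.degree (m • prim vinf : Divisor K F) = (m : ℤ) := by
    rw [map_nsmul, degree_prim']
    simp
  have hxmem : ∀ i, x i ∈ riemannRochSpace (m • prim vinf : Divisor K F) := by
    intro i
    rw [← x_span]
    exact Submodule.subset_span ⟨i, rfl⟩
  have hli0 : ∀ a : Fin (r + 1) → K, a ≠ 0 → (∑ i, a i • x i) ≠ 0 := by
    intro a ha h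
    apply ha
    exact funext ((Fintype.linearIndependent_iff.mp x_li) a h)
  have hpt0 : ∀ P : Place K F, pt P ≠ 0 := by
    intro P hP
    have h2g : 2 * (genusFF K F : ℤ) ≤ Divisor.degree (m • prim vinf : Divisor K F) := by
      rw [hdeg, genusFF_eq_genusR]
      exact_mod_cast (by omega : 2 * genusR K F ≤ m)
    obtain ⟨f, hf, hf0, hford⟩ := H439.exists_mem_L_ord_eq h2g P
    rw [← x_span, Submodule.mem_span_range_iff_exists_fun] at hf
    obtain ⟨a, rfl⟩ := hf
    have ha : a ≠ 0 := by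
      rintro rfl
      apply hf0
      simp
    have h1 := (pt_spec P a ha).mp (by rw [hP]; simp)
    rw [hZ a hf0, Finsupp.add_apply, divOf_apply, hford] at h1
    omega
  let S : LinSys K F (r + 1) :=
    { D := m • prim vinf
      x := x
      Z := Z
      pt := pt
      hD := by rw [hdeg]; exact_mod_cast (by omega : 0 < m)
      hli := x_li
      hx := hxmem
      hZ := fun a h => hZ a h
      hpt0 := hpt0
      hpt := pt_spec }
  exact S.exists_chow


end Fermat.Agent.S17.H890
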