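import Mathlib
import Fermat.Agent.S17.H890.Chow
import Fermat.Agent.S17.H617.HWallStmt

/-!
# S17 / H / CHOW (helper890): `HWall.ChowStatement E` for every embedding datum

The frozen interface `Fermat.Agent.S17.HWall.ChowStatement` (helper617), proved for every
`E : EmbData K F`, `K` algebraically closed of characteristic zero.
-/

set_option autoImplicit false

noncomputable section

namespace Fermat.Agent.S17.H890

open AlgebraicCurve Fermat.Agent.Lib.RR Fermat.Agent.S17.HWall

variable {K F : Type*} [Field K] [Field F] [Algebra K F]

/-- **CHOW = (C1) + (C2)**. -/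
theorem chowStatement [IsAlgClosed K] [CharZero K] [FF1 K F] (E : EmbData K F) :
    ChowStatement E :=
  chow_of_fields E.vinf E.m E.r E.x E.pt E.hm E.x_li E.x_span E.Z
    (fun _ h => dif_neg h) E.pt_spec

end Fermat.Agent.S17.H890
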